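import Fermat.Agent.LT.T7.H893.SupplyPreSpec
import Fermat.Agent.LT.T7.H340.IwKit

/-!
# Row LT, tower T7, leaf T7.L2.1.G2 `RegSupp0C` (registry 2295) -- helper771

OFF-MAIN.  `regSupp0C771 (K) : H893.RegSupp0C K`, VERBATIM (frozen Prop of
`LT/T7/H893/SupplyPreSpec.lean`, helper893@100cdf206, sha256 37db5856), unconditional, every
number field.  Imports: byte copies of the Spec closure of helper893 and of the Iwahori kit of
helper340 (`T7/H340/IwKit.lean` 93078bb8, `IwLocal.lean` f1cf3d73, local kit of helper129).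

## Proof

The SHAPE of the elements of `I diag(ϖ^m, 1) I` (`IsShape771 v m M`): integral entries,
`v (det M) = exp (-m)`, lower left entry in the maximal ideal, lower right entry a unit.
* the Iwahori subgroup has shape `0`, the double coset `I diag(ϖ, 1) I` has shape `1` (kit);
* shape `1` times shape `m` is shape `m + 1` (`isShape_mul771`);
* a scalar multiple `s M` of a matrix of shape `m` is `n⁺(x) diag(c, d) n⁻(y)` with `x` integral,
  `y` in the maximal ideal, `v c = exp (-m) v d` (`isShape_factor771`).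
A point `y` of the support of `regL u z H k m φ` is `z^k h₁ ⋯ h_m y₀` with `h_i ∈ H` and `y₀` in
the support of `φ` (`supp_iterate771`); all factors but `y₀` are local at `u`.
-/

set_option autoImplicit false

open IsDedekindDomain NumberField IsDedekindDomain.HeightOneSpectrum
open Fermat.Agent.LT.H556 Fermat.Agent.LT.H556.A0 Fermat.Agent.LT.H129

noncomputable section

namespace Fermat.Agent.LT.T7.H771

open Fermat.Agent.LT.T7 Fermat.Agent.LT.T7.H340 Fermat.Agent.LT.T7.H893

/-! ## 1. Local algebra -/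

section Local

variable {F : Type*} [Field F] {v : Valuation F (WithZero (Multiplicative ℤ))}

/-- The shape of the elements of `I diag(ϖ^m, 1) I`. -/
def IsShape771 (v : Valuation F (WithZero (Multiplicative ℤ))) (m : ℕ) (M : GL (Fin 2) F) :
    Prop :=
  (∀ i j, v ((M : Matrix (Fin 2) (Fin 2) F) i j) ≤ 1) ∧
    v (M : Matrix (Fin 2) (Fin 2) F).det = WithZero.exp (-(m : ℤ)) ∧
    v ((M : Matrix (Fin 2) (Fin 2) F) 1 0) < 1 ∧
    v ((M : Matrix (Fin 2) (Fin 2) F) 1 1) = 1

theorem isShape_zero771 {M : GL (Fin 2) F} (h : IsIwG340 v M) : IsShape771 v 0 M :=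
  ⟨h.1, by rw [h.val_det]; simp, h.2.2, h.val_11⟩

theorem isShape_one771 {M : GL (Fin 2) F} (h : IsIwT340 v M) : IsShape771 v 1 M :=
  ⟨h.1, by simpa using h.2.1, h.2.2.2.1, h.2.2.2.2⟩

theorem mul_lt_one771 {a b : WithZero (Multiplicative ℤ)} (ha : a < 1) (hb : b ≤ 1) :
    a * b < 1 :=
  lt_of_le_of_lt (by simpa using mul_le_mul' (le_refl a) hb) ha

theorem mul_lt_one'771 {a b : WithZero (Multiplicative ℤ)} (ha : a ≤ 1) (hb : b < 1) :
    a * b < 1 := by
  rw [mul_comm]
  exact mul_lt_one771 hb ha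

theorem isShape_mul771 {A B : GL (Fin 2) F} {m : ℕ} (hA : IsShape771 v 1 A)
    (hB : IsShape771 v m B) : IsShape771 v (m + 1) (A * B) := by
  obtain ⟨hA1, hA2, hA3, hA4⟩ := hA
  obtain ⟨hB1, hB2, hB3, hB4⟩ := hB
  have hent : ∀ i j, ((A * B : GL (Fin 2) F) : Matrix (Fin 2) (Fin 2) F) i j
      = (A : Matrix (Fin 2) (Fin 2) F) i 0 * (B : Matrix (Fin 2) (Fin 2) F) 0 j
        + (A : Matrix (Fin 2) (Fin 2) F) i 1 * (B : Matrix (Fin 2) (Fin 2) F) 1 j := by
    intro i j
    rw [Matrix.GeneralLinearGroup.coe_mul, Matrix.mul_apply, Fin.sum_univ_two]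
  refine ⟨?_, ?_, ?_, ?_⟩
  · intro i j
    rw [hent]
    refine le_trans (Valuation.map_add _ _ _) (max_le ?_ ?_)
    · rw [map_mul]; exact mul_le_one' (hA1 i 0) (hB1 0 j)
    · rw [map_mul]; exact mul_le_one' (hA1 i 1) (hB1 1 j)
  · rw [Matrix.GeneralLinearGroup.coe_mul, Matrix.det_mul, map_mul, hA2, hB2,
      ← WithZero.exp_add]
    congr 1
    push_cast
    ring
  · rw [hent]
    refine Valuation.map_add_lt _ ?_ ?_
    · rw [map_mul]; exact mul_lt_one771 hA3 (hB1 0 0)
    · rw [map_mul]; exact mul_lt_one'771 (hA1 1 1) hB3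
  · rw [hent]
    have h1 : v ((A : Matrix (Fin 2) (Fin 2) F) 1 0 * (B : Matrix (Fin 2) (Fin 2) F) 0 1) < 1 := by
      rw [map_mul]; exact mul_lt_one771 hA3 (hB1 0 1)
    have h2 : v ((A : Matrix (Fin 2) (Fin 2) F) 1 1 * (B : Matrix (Fin 2) (Fin 2) F) 1 1) = 1 := by
      rw [map_mul, hA4, hB4, one_mul]
    rw [Valuation.map_add_eq_of_lt_right v (by rw [h2]; exact h1), h2]

theorem isIwG340_lower771 {r : F} (hr : v r < 1) : IsIwG340 v (lowerU129 r) := by
  have key : ∀ x : F, v x ≤ 1 →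
      ∀ i j, v (((lowerU129 x : GL (Fin 2) F) : Matrix (Fin 2) (Fin 2) F) i j) ≤ 1 := by
    intro x hx i j
    fin_cases i <;> fin_cases j <;> simp [lowerU129, hx]
  refine ⟨key r hr.le, ?_, ?_⟩
  · rw [lowerU129_inv]
    exact key (-r) (by rw [Valuation.map_neg]; exact hr.le)
  · simpa [lowerU129] using hr

/-- A scalar multiple of a matrix of shape `m` is `n⁺(x) diag(c, d) n⁻(y)`. -/
theorem isShape_factor771 {M : GL (Fin 2) F} {m : ℕ} (h : IsShape771 v m M) (s : F)
    (hs : s ≠ 0) :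
    ∃ x y c d : F, v x ≤ 1 ∧ v y < 1 ∧ d ≠ 0 ∧ v c = WithZero.exp (-(m : ℤ)) * v d ∧
      s • (M : Matrix (Fin 2) (Fin 2) F)
        = ((upperU129 x : GL (Fin 2) F) : Matrix (Fin 2) (Fin 2) F) * !![c, 0; 0, d]
          * ((lowerU129 y : GL (Fin 2) F) : Matrix (Fin 2) (Fin 2) F) := by
  obtain ⟨h1, h2, h3, h4⟩ := h
  set a := (M : Matrix (Fin 2) (Fin 2) F) 0 0 with ha
  set b := (M : Matrix (Fin 2) (Fin 2) F) 0 1 with hb
  set c' := (M : Matrix (Fin 2) (Fin 2) F) 1 0 with hc'
  set d' := (M : Matrix (Fin 2) (Fin 2) F) 1 1 with hd'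
  have hd0 : d' ≠ 0 := by
    intro h0
    rw [h0, map_zero] at h4
    exact zero_ne_one h4
  have hdet : (M : Matrix (Fin 2) (Fin 2) F).det = a * d' - b * c' := Matrix.det_fin_two _
  refine ⟨b / d', c' / d', s * (a * d' - b * c') / d', s * d', ?_, ?_, mul_ne_zero hs hd0, ?_, ?_⟩
  · rw [map_div₀, h4, div_one]; exact h1 0 1
  · rw [map_div₀, h4, div_one]; exact h3
  · rw [map_div₀, map_mul, map_mul, h4, div_one, mul_one, ← hdet, h2, mul_comm]
  · ext i j
    fin_cases i <;> fin_cases j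
    · simp [upperU129, lowerU129, Matrix.mul_apply, Fin.sum_univ_two, ← ha]
      field_simp
      ring
    · simp [upperU129, lowerU129, Matrix.mul_apply, Fin.sum_univ_two, ← hb]
      field_simp
    · simp [upperU129, lowerU129, Matrix.mul_apply, Fin.sum_univ_two, ← hc']
      field_simp
    · simp [upperU129, lowerU129, Matrix.mul_apply, Fin.sum_univ_two, ← hd']

end Local

/-! ## 2. The support of the regular member -/

section Global

variable {K : Type} [Field K] [NumberField K]

theorem agree_trans771 {O : Set (HeightOneSpectrum (𝓞 K))} {a b c : G K}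
    (h1 : T5.AgreeOutside O a b) (h2 : T5.AgreeOutside O b c) : T5.AgreeOutside O a c :=
  ⟨fun w => (h1.1 w).trans (h2.1 w), fun v hv => (h1.2 v hv).trans (h2.2 v hv)⟩

/-- Left multiplication by an element which is local at `u` does not change the components
outside `u`. -/
theorem agree_of_local771 {u : HeightOneSpectrum (𝓞 K)} {h : G K} (hh : IsLocalAtFin u h)
    (y : G K) :
    T5.AgreeOutside {v | ∃ j < 1, v = (fun _ : ℕ => u) j} (h * y) y := by
  have h1 : T5.AgreeOutside {v | ∃ j < 1, v = (fun _ : ℕ => u) j} h 1 := by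
    refine ⟨fun w => ?_, fun v hv => ?_⟩
    · funext i j
      have e1 := hh.1 w i j
      have e2 := (isLocalAtFin_one129 u).1 w i j
      unfold infComp
      rw [e1, e2]
    · have hne : v ≠ u := fun e => hv ⟨0, Nat.one_pos, e⟩
      rw [Fermat.Agent.LT.H942.finComp_one942]
      exact hh.2 v hne
  have h2 := T5.H942.agreeOutside_mul942 _ h1 (T5.H942.agreeOutside_refl942 _ y)
  rwa [one_mul] at h2

theorem isLocalAtFin_zpow771 {u : HeightOneSpectrum (𝓞 K)} {z : G K} (hz : IsLocalAtFin u z)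
    (k : ℤ) : IsLocalAtFin u (z ^ k) := by
  rw [isLocalAtFin_iff129] at *
  exact ⟨fun w => by rw [map_zpow, hz.1 w, one_zpow],
    fun v' hv => by rw [map_zpow, hz.2 v' hv, one_zpow]⟩

/-- The points of the support of `(iwL u H)^[m] φ`. -/
theorem supp_iterate771 {u : HeightOneSpectrum (𝓞 K)} {H : Finset (G K)}
    (hH : IsIwCosetSystem u H) {φ : G K → ℂ} {C : Set (G K)}
    (hφ : T5.H32.IsIwSupported32 1 (fun _ => u) C φ) :
    ∀ (m : ℕ) (y : G K), ((iwL u H)^[m] φ) y ≠ 0 →
      IsShape771 (vw340 u) m (finCompHom129 u y) ∧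
        ∃ c ∈ C, T5.AgreeOutside {v | ∃ j < 1, v = (fun _ : ℕ => u) j} y c := by
  intro m
  induction m with
  | zero =>
    intro y hy
    rw [Function.iterate_zero, id] at hy
    obtain ⟨h1, h2⟩ := hφ y hy
    exact ⟨isShape_zero771 ((inIwahori_iff340 u y).1 (h1 0 Nat.one_pos)), h2⟩
  | succ m ih =>
    intro y hy
    rw [Function.iterate_succ_apply'] at hy
    unfold iwL at hy
    have hsum := right_ne_zero_of_mul hy
    obtain ⟨h, hhH, hne⟩ := Finset.exists_ne_zero_of_sum_ne_zero hsum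
    obtain ⟨hsh, c, hcC, hag⟩ := ih (h⁻¹ * y) hne
    obtain ⟨hloc, hcos⟩ := hH.2.1 h hhH
    have ey : y = h * (h⁻¹ * y) := by rw [mul_inv_cancel_left]
    refine ⟨?_, c, hcC, ?_⟩
    · have e : finCompHom129 u y = finCompHom129 u h * finCompHom129 u (h⁻¹ * y) := by
        rw [← map_mul, mul_inv_cancel_left]
      rw [e]
      exact isShape_mul771 (isShape_one771 (isIwT340_of_inIwahoriCoset hcos)) hsh
    · have := agree_of_local771 hloc (h⁻¹ * y)
      rw [mul_inv_cancel_left] at this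
      exact agree_trans771 this hag

/-- **T7.L2.1.G2 `RegSupp0C`**, VERBATIM. -/
theorem regSupp0C771 (K : Type) [Field K] [NumberField K] : RegSupp0C K := by
  intro u H z hH hz φ C _ hφ k m y hy
  unfold regL ltr at hy
  obtain ⟨hsh, c, hcC, hag⟩ := supp_iterate771 hH hφ m ((z ^ k)⁻¹ * y) hy
  obtain ⟨hzloc, cz, hcz, hzmat⟩ := hz
  have hcz0 : cz ≠ 0 := by
    intro h0
    rw [h0, map_zero] at hcz
    exact WithZero.exp_ne_zero.symm hcz
  have hagy : T5.AgreeOutside {v | ∃ j < 1, v = (fun _ : ℕ => u) j} y c := by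
    have := agree_of_local771 (isLocalAtFin_zpow771 hzloc k) ((z ^ k)⁻¹ * y)
    rw [mul_inv_cancel_left] at this
    exact agree_trans771 this hag
  refine ⟨?_, ?_, c, hcC, hagy⟩
  · -- the component at `u`
    have ez : finCompHom129 u z
        = Matrix.GeneralLinearGroup.scalar (Fin 2) (Units.mk0 cz hcz0) := by
      apply Units.ext
      rw [coe_finCompHom129, hzmat, Matrix.GeneralLinearGroup.coe_scalar]
      rfl
    have ezk : finCompHom129 u (z ^ k)
        = Matrix.GeneralLinearGroup.scalar (Fin 2) ((Units.mk0 cz hcz0) ^ k) := by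
      rw [map_zpow, ez, map_zpow]
    set s : (u.adicCompletion K)ˣ := (Units.mk0 cz hcz0) ^ k with hs
    obtain ⟨x, y', c', d', hx, hy', hd', hcd, hfac⟩ :=
      isShape_factor771 hsh (s : u.adicCompletion K) s.ne_zero
    have ey : finComp u y
        = (s : u.adicCompletion K) • finComp u ((z ^ k)⁻¹ * y) := by
      have e1 : y = z ^ k * ((z ^ k)⁻¹ * y) := by rw [mul_inv_cancel_left]
      conv_lhs => rw [e1]
      rw [Fermat.Agent.LT.H942.finComp_mul942, ← coe_finCompHom129 u (z ^ k), ezk,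
        Matrix.GeneralLinearGroup.coe_scalar, Matrix.scalar_apply, ← Matrix.smul_eq_diagonal_mul]
    refine ⟨locFin129 u (upperU129 x), locFin129 u (lowerU129 y'), c', d', ?_, ?_, hd', hcd, ?_⟩
    · rw [inIwahori_iff340, finCompHom129_locFin129]
      exact isIwG340_upper hx
    · rw [inIwahori_iff340, finCompHom129_locFin129]
      exact isIwG340_lower771 hy'
    · show finComp u y = _
      rw [ey, finComp_locFin129, finComp_locFin129, ← coe_finCompHom129]
      exact hfac
  · intro j hj0 hj1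
    omega

end Global

end Fermat.Agent.LT.T7.H771

end
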