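import Fermat.Agent.LT.T7.H771.RegSuppFalse

/-!
# Row LT, tower T7, leaf T7.L2.1.G1 in CORRECTED form: `RegSuppNeC771` (helper771)

OFF-MAIN.  The frozen Prop `H893.RegSuppC` (SupplyPreSpec 37db5856) is false as typed
(`regSuppC_false771`, `RegSuppFalse.lean`): the hypothesis `orbit_ne` is missing.  Here:

* `RegSuppNeC771 K` : the same Prop with the extra hypothesis
  `∀ j, 0 < j → j < l → o j ≠ o 0` (the field `orbit_ne` of `IsL2Base`);
* `regSuppNeC771 K : RegSuppNeC771 K`, PROVED, every number field.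

Proof: a point `y` of the support is `h z^k h₁ ⋯ h_m y₀`, `h = u₁ g u₂ ∈ Hg`, `h_i ∈ H`, `y₀` in
the support of `φ`.  At `o 0`: `h` is in the Iwahori subgroup (`o 0 ∣ 𝔫₀`, `g` trivial), the
product has the shape of `I diag(ϖ^m, 1) I` up to the scalar (`isShape_mul'771`,
`isShape_factor771`).  At `o j ≠ o 0`: all factors are in the Iwahori subgroup.  Outside the
orbit `y` agrees with `h c`, `c ∈ C`: `C' = ⋃_{h ∈ Hg} h C`.
-/

set_option autoImplicit false

open IsDedekindDomain NumberField IsDedekindDomain.HeightOneSpectrum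
open Fermat.Agent.LT.H556 Fermat.Agent.LT.H556.A0 Fermat.Agent.LT.H129

noncomputable section

namespace Fermat.Agent.LT.T7.H771

open Fermat.Agent.LT.T7 Fermat.Agent.LT.T7.H340 Fermat.Agent.LT.T7.H893

/-- **The corrected leaf G1**: `H893.RegSuppC` with the hypothesis `orbit_ne`. -/
def RegSuppNeC771 (K : Type) [Field K] [NumberField K] : Prop :=
  ∀ (𝔫₀ : Ideal (𝓞 K)) (l : ℕ) (o : ℕ → HeightOneSpectrum (𝓞 K)), 0 < l →
    (∀ j : ℕ, (o j).asIdeal ∣ 𝔫₀) → (∀ j : ℕ, 0 < j → j < l → o j ≠ o 0) →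
    ∀ g : G K, (∀ w : InfinitePlace K, TrivAtInf w g) → (∀ j < l, TrivAtFin (o j) g) →
    ∀ (Hg H : Finset (G K)) (z : G K), IsDblCosetSystem 𝔫₀ g Hg →
      IsIwCosetSystem (o 0) H → IsScalarUniformizerAt (o 0) z →
    ∀ (φ : G K → ℂ) (C : Set (G K)), IsCompact C → T5.H32.IsIwSupported32 l o C φ →
      ∃ C' : Set (G K), IsCompact C' ∧
        ∀ (k : ℤ) (m : ℕ), T5.HasRegularSupportZ l o m C' (lsum Hg (regL (o 0) z H k m φ))

/-! ## 1. Local algebra -/

section Local

variable {F : Type*} [Field F] {v : Valuation F (WithZero (Multiplicative ℤ))}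

theorem isShape_mul'771 {A B : GL (Fin 2) F} {a b : ℕ} (hA : IsShape771 v a A)
    (hB : IsShape771 v b B) : IsShape771 v (a + b) (A * B) := by
  obtain ⟨hA1, hA2, hA3, hA4⟩ := hA
  obtain ⟨hB1, hB2, hB3, hB4⟩ := hB
  have hent : ∀ i j, ((A * B : GL (Fin 2) F) : Matrix (Fin 2) (Fin 2) F) i j
      = (A : Matrix (Fin 2) (Fin 2) F) i 0 * (B : Matrix (Fin 2) (Fin 2) F) 0 j
        + (A : Matrix (Fin 2) (Fin 2) F) i 1 * (B : Matrix (Fin 2) (Fin 2) F) 1 j := by
    intro i j
    rw [Matrix.GeneralLinearGroup.coe_mul, Matrix.mul_apply, Fin.sum_univ_two]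
  refine ⟨?_, ?_, ?_, ?_⟩
  · intro i j
    rw [hent]
    refine le_trans (Valuation.map_add _ _ _) (max_le ?_ ?_)
    · rw [map_mul]; exact mul_le_one' (hA1 i 0) (hB1 0 j)
    · rw [map_mul]; exact mul_le_one' (hA1 i 1) (hB1 1 j)
  · rw [Matrix.GeneralLinearGroup.coe_mul, Matrix.det_mul, map_mul, hA2, hB2,
      ← WithZero.exp_add]
    congr 1
    push_cast
    ring
  · rw [hent]
    refine Valuation.map_add_lt _ ?_ ?_
    · rw [map_mul]; exact mul_lt_one771 hA3 (hB1 0 0)
    · rw [map_mul]; exact mul_lt_one'771 (hA1 1 1) hB3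
  · rw [hent]
    have h1 : v ((A : Matrix (Fin 2) (Fin 2) F) 1 0 * (B : Matrix (Fin 2) (Fin 2) F) 0 1) < 1 := by
      rw [map_mul]; exact mul_lt_one771 hA3 (hB1 0 1)
    have h2 : v ((A : Matrix (Fin 2) (Fin 2) F) 1 1 * (B : Matrix (Fin 2) (Fin 2) F) 1 1) = 1 := by
      rw [map_mul, hA4, hB4, one_mul]
    rw [Valuation.map_add_eq_of_lt_right v (by rw [h2]; exact h1), h2]

end Local

/-! ## 2. The level group at a place dividing the level -/

section Global

variable {K : Type} [Field K] [NumberField K]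

/-- The elements of the closure of `𝔫` in `K_v` are in the maximal ideal when `v ∣ 𝔫`. -/
theorem val_lt_one_of_mem_idealClosure771 {𝔫 : Ideal (𝓞 K)} {v : HeightOneSpectrum (𝓞 K)}
    (hv : v.asIdeal ∣ 𝔫) {x : v.adicCompletion K} (hx : x ∈ idealClosure 𝔫 v) :
    Valued.v x < 1 := by
  unfold idealClosure at hx
  rw [mem_closure_iff_nhds] at hx
  have hU : {y : v.adicCompletion K | Valued.v (y - x) < 1} ∈ nhds x := by
    rw [Valued.mem_nhds]
    have h' : (Valued.v : Valuation (v.adicCompletion K) _).restrict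
        (1 : v.adicCompletion K) ≠ 0 := by simp
    refine ⟨Units.mk0 _ h', ?_⟩
    rw [Units.val_mk0]
    intro y hy
    have := (Valuation.restrict_lt_iff _).mp hy
    simpa using this
  obtain ⟨s, hsU, a, ha, rfl⟩ := hx _ hU
  have hs : Valued.v (algebraMap K (v.adicCompletion K) (algebraMap (𝓞 K) K a)) < 1 := by
    have hval : Valued.v (algebraMap K (v.adicCompletion K) (algebraMap (𝓞 K) K a))
        = v.valuation K (algebraMap (𝓞 K) K a) :=
      valuedAdicCompletion_eq_valuation' v (algebraMap (𝓞 K) K a)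
    rw [hval, HeightOneSpectrum.valuation_lt_one_iff_mem]
    exact Ideal.le_of_dvd hv ha
  have e : x = algebraMap K (v.adicCompletion K) (algebraMap (𝓞 K) K a)
      - (algebraMap K (v.adicCompletion K) (algebraMap (𝓞 K) K a) - x) := by ring
  rw [e]
  exact Valuation.map_sub_lt _ hs hsU

/-- `U(𝔫)` is contained in the Iwahori subgroup at the places dividing `𝔫`. -/
theorem inIwahori_of_level771 {𝔫 : Ideal (𝓞 K)} {v : HeightOneSpectrum (𝓞 K)}
    (hv : v.asIdeal ∣ 𝔫) {u' : G K} (hu : InLevelGroup 𝔫 u') : T5.InIwahori v u' := by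
  have key : ∀ x : G K, (∀ i j, (finComp v x - 1) i j ∈ idealClosure 𝔫 v) →
      IsIntegralAt v x ∧ Valued.v (finComp v x 1 0) < 1 := by
    intro x hx
    have e : ∀ i j, finComp v x i j
        = (finComp v x - 1) i j + (1 : Matrix (Fin 2) (Fin 2) (v.adicCompletion K)) i j := by
      intro i j
      simp
    refine ⟨fun i j => ?_, ?_⟩
    · rw [mem_adicCompletionIntegers, e i j]
      refine le_trans (Valuation.map_add _ _ _)
        (max_le (val_lt_one_of_mem_idealClosure771 hv (hx i j)).le ?_)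
      by_cases hij : i = j
      · subst hij
        simp
      · simp [Matrix.one_apply_ne hij]
    · have := val_lt_one_of_mem_idealClosure771 hv (hx 1 0)
      simpa using this
  exact ⟨(key u' fun i j => (hu.2 v i j).1).1, (key u'⁻¹ fun i j => (hu.2 v i j).2).1,
    (key u' fun i j => (hu.2 v i j).1).2⟩

theorem inIwahori_of_triv771 {v : HeightOneSpectrum (𝓞 K)} {g : G K} (hg : TrivAtFin v g) :
    T5.InIwahori v g := by
  rw [inIwahori_iff340, (trivAtFin_iff129 v g).1 hg]
  exact isIwG340_one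

/-- Left multiplication by an element which is local at `u ∈ O` does not change the components
outside `O`. -/
theorem agree_of_local'771 {O : Set (HeightOneSpectrum (𝓞 K))} {u : HeightOneSpectrum (𝓞 K)}
    (huO : u ∈ O) {h : G K} (hh : IsLocalAtFin u h) (y : G K) :
    T5.AgreeOutside O (h * y) y := by
  have h1 : T5.AgreeOutside O h 1 := by
    refine ⟨fun w => ?_, fun v hv => ?_⟩
    · funext i j
      have e1 := hh.1 w i j
      have e2 := (isLocalAtFin_one129 u).1 w i j
      unfold infComp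
      rw [e1, e2]
    · have hne : v ≠ u := fun e => hv (e ▸ huO)
      rw [Fermat.Agent.LT.H942.finComp_one942]
      exact hh.2 v hne
  have h2 := T5.H942.agreeOutside_mul942 _ h1 (T5.H942.agreeOutside_refl942 _ y)
  rwa [one_mul] at h2

/-- Left multiplication by an element which is local at `u` preserves the Iwahori subgroup at
the other places. -/
theorem inIwahori_local_mul771 {u v' : HeightOneSpectrum (𝓞 K)} (hne : v' ≠ u) {h y : G K}
    (hh : IsLocalAtFin u h) (hy : T5.InIwahori v' y) : T5.InIwahori v' (h * y) := by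
  rw [inIwahori_iff340] at *
  rw [map_mul, ((isLocalAtFin_iff129 u h).1 hh).2 v' hne, one_mul]
  exact hy

/-- The points of the support of `(iwL (o 0) H)^[m] φ`, along an orbit. -/
theorem supp_iterate'771 {l : ℕ} {o : ℕ → HeightOneSpectrum (𝓞 K)} (hl : 0 < l)
    (hne : ∀ j : ℕ, 0 < j → j < l → o j ≠ o 0) {H : Finset (G K)}
    (hH : IsIwCosetSystem (o 0) H) {φ : G K → ℂ} {C : Set (G K)}
    (hφ : T5.H32.IsIwSupported32 l o C φ) :
    ∀ (m : ℕ) (y : G K), ((iwL (o 0) H)^[m] φ) y ≠ 0 →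
      IsShape771 (vw340 (o 0)) m (finCompHom129 (o 0) y) ∧
        (∀ j : ℕ, 0 < j → j < l → T5.InIwahori (o j) y) ∧
        ∃ c ∈ C, T5.AgreeOutside {v | ∃ j < l, v = o j} y c := by
  intro m
  induction m with
  | zero =>
    intro y hy
    rw [Function.iterate_zero, id] at hy
    obtain ⟨h1, h2⟩ := hφ y hy
    exact ⟨isShape_zero771 ((inIwahori_iff340 (o 0) y).1 (h1 0 hl)),
      fun j _ hj => h1 j hj, h2⟩
  | succ m ih =>
    intro y hy
    rw [Function.iterate_succ_apply'] at hy
    unfold iwL at hy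
    have hsum := right_ne_zero_of_mul hy
    obtain ⟨h, hhH, hnz⟩ := Finset.exists_ne_zero_of_sum_ne_zero hsum
    obtain ⟨hsh, hiw, c, hcC, hag⟩ := ih (h⁻¹ * y) hnz
    obtain ⟨hloc, hcos⟩ := hH.2.1 h hhH
    refine ⟨?_, ?_, c, hcC, ?_⟩
    · have e : finCompHom129 (o 0) y
          = finCompHom129 (o 0) h * finCompHom129 (o 0) (h⁻¹ * y) := by
        rw [← map_mul, mul_inv_cancel_left]
      rw [e]
      exact isShape_mul771 (isShape_one771 (isIwT340_of_inIwahoriCoset hcos)) hsh
    · intro j hj0 hjl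
      have := inIwahori_local_mul771 (hne j hj0 hjl) hloc (hiw j hj0 hjl)
      rwa [mul_inv_cancel_left] at this
    · have := agree_of_local'771 (O := {v | ∃ j < l, v = o j}) ⟨0, hl, rfl⟩ hloc (h⁻¹ * y)
      rw [mul_inv_cancel_left] at this
      exact agree_trans771 this hag

/-- **The corrected leaf G1**, PROVED. -/
theorem regSuppNeC771 (K : Type) [Field K] [NumberField K] : RegSuppNeC771 K := by
  intro 𝔫₀ l o hl hdiv hne g _ hgfin Hg H z hdbl hH hz φ C hC hφ
  refine ⟨⋃ h ∈ Hg, (fun c => h * c) '' C,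
    Hg.isCompact_biUnion (fun h _ => hC.image (continuous_const_mul h)), ?_⟩
  intro k m y hy
  unfold lsum at hy
  obtain ⟨h, hhg, hnz⟩ := Finset.exists_ne_zero_of_sum_ne_zero hy
  unfold regL ltr at hnz
  obtain ⟨hsh, hiw, c, hcC, hag⟩ :=
    supp_iterate'771 hl hne hH hφ m ((z ^ k)⁻¹ * (h⁻¹ * y)) hnz
  obtain ⟨hzloc, cz, hcz, hzmat⟩ := hz
  have hcz0 : cz ≠ 0 := by
    intro h0
    rw [h0, map_zero] at hcz
    exact WithZero.exp_ne_zero.symm hcz
  have hzk := isLocalAtFin_zpow771 hzloc k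
  -- `h` is Iwahori along the orbit
  obtain ⟨u₁, u₂, hu₁, hu₂, hh⟩ := hdbl.1 h hhg
  have hhiw : ∀ j < l, T5.InIwahori (o j) h := by
    intro j hj
    rw [hh]
    exact inIwahori_mul340 (inIwahori_mul340 (inIwahori_of_level771 (hdiv j) hu₁)
      (inIwahori_of_triv771 (hgfin j hj))) (inIwahori_of_level771 (hdiv j) hu₂)
  have ey : y = h * (z ^ k * ((z ^ k)⁻¹ * (h⁻¹ * y))) := by
    rw [mul_inv_cancel_left, mul_inv_cancel_left]
  set y₂ : G K := (z ^ k)⁻¹ * (h⁻¹ * y) with hy₂
  refine ⟨?_, ?_, h * c, ?_, ?_⟩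
  · -- the component at `o 0`
    have ez : finCompHom129 (o 0) z
        = Matrix.GeneralLinearGroup.scalar (Fin 2) (Units.mk0 cz hcz0) := by
      apply Units.ext
      rw [coe_finCompHom129, hzmat, Matrix.GeneralLinearGroup.coe_scalar]
      rfl
    have ezk : finCompHom129 (o 0) (z ^ k)
        = Matrix.GeneralLinearGroup.scalar (Fin 2) ((Units.mk0 cz hcz0) ^ k) := by
      rw [map_zpow, ez, map_zpow]
    set s : ((o 0).adicCompletion K)ˣ := (Units.mk0 cz hcz0) ^ k with hs
    have hshape : IsShape771 (vw340 (o 0)) (0 + m)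
        (finCompHom129 (o 0) h * finCompHom129 (o 0) y₂) :=
      isShape_mul'771 (isShape_zero771 ((inIwahori_iff340 (o 0) h).1 (hhiw 0 hl))) hsh
    rw [zero_add] at hshape
    obtain ⟨x, y', c', d', hx, hy', hd', hcd, hfac⟩ :=
      isShape_factor771 hshape (s : (o 0).adicCompletion K) s.ne_zero
    have eyc : finComp (o 0) y
        = (s : (o 0).adicCompletion K) • (((finCompHom129 (o 0) h * finCompHom129 (o 0) y₂ :
            GL (Fin 2) ((o 0).adicCompletion K)) :
              Matrix (Fin 2) (Fin 2) ((o 0).adicCompletion K))) := by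
      conv_lhs => rw [ey]
      rw [Fermat.Agent.LT.H942.finComp_mul942, Fermat.Agent.LT.H942.finComp_mul942,
        ← coe_finCompHom129 (o 0) (z ^ k), ezk, Matrix.GeneralLinearGroup.coe_scalar,
        Matrix.scalar_apply, ← Matrix.smul_eq_diagonal_mul, Matrix.mul_smul,
        Matrix.GeneralLinearGroup.coe_mul, coe_finCompHom129, coe_finCompHom129]
    refine ⟨locFin129 (o 0) (upperU129 x), locFin129 (o 0) (lowerU129 y'), c', d',
      ?_, ?_, hd', hcd, ?_⟩
    · rw [inIwahori_iff340, finCompHom129_locFin129]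
      exact isIwG340_upper hx
    · rw [inIwahori_iff340, finCompHom129_locFin129]
      exact isIwG340_lower771 hy'
    · rw [eyc, finComp_locFin129, finComp_locFin129]
      exact hfac
  · -- the other places of the orbit
    intro j hj0 hjl
    rw [ey]
    exact inIwahori_mul340 (hhiw j hjl)
      (inIwahori_local_mul771 (hne j hj0 hjl) hzk (hiw j hj0 hjl))
  · exact Set.mem_biUnion hhg ⟨c, hcC, rfl⟩
  · -- outside the orbit
    have h1 := agree_of_local'771 (O := {v | ∃ j < l, v = o j}) ⟨0, hl, rfl⟩ hzk y₂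
    have h2 := agree_trans771 h1 hag
    have h3 := T5.H942.agreeOutside_mul942 _ (T5.H942.agreeOutside_refl942 _ h) h2
    rw [← ey] at h3
    exact h3

end Global

end Fermat.Agent.LT.T7.H771

end
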