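import Fermat.Agent.LT.T7.H771.RegSupp0

/-!
# Row LT, tower T7, leaf T7.L2.1.G1 `RegSuppC`: FALSE AS TYPED (helper771, referee)

OFF-MAIN.  `regSuppC_false771 (u) : ¬ H893.RegSuppC K` for every number field `K` and every finite
place `u` of `K`: the frozen Prop `RegSuppC` of `LT/T7/H893/SupplyPreSpec.lean` (37db5856) does
not ask the places `o j`, `0 < j < l`, to be different from `o 0`.

Witness: `l = 2`, `o = fun _ => u`, `𝔫₀ = u`, `g = 1`, `Hg = {1}`, `φ` = the indicator of `{1}`,
`C = {1}`, `k = 0`, `m = 1`.  The function `lsum {1} (regL u z H 0 1 φ)` does not vanish at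
`h₀ ∈ H`; `HasRegularSupportZ 2 o 1 C'` asks `h₀` to be in the Iwahori subgroup at `o 1 = u`, but
`h₀ ∈ I diag(ϖ, 1) I` has a determinant of valuation `exp (-1)`.

The corrected Prop (with `orbit_ne`, which `IsL2Base` provides) is proved in `RegSuppNe.lean`.
-/

set_option autoImplicit false

open IsDedekindDomain NumberField IsDedekindDomain.HeightOneSpectrum
open Fermat.Agent.LT.H556 Fermat.Agent.LT.H556.A0 Fermat.Agent.LT.H129

noncomputable section

namespace Fermat.Agent.LT.T7.H771

open Fermat.Agent.LT.T7 Fermat.Agent.LT.T7.H340 Fermat.Agent.LT.T7.H893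

variable {K : Type} [Field K] [NumberField K]

theorem zero_mem_idealClosure771 (𝔫 : Ideal (𝓞 K)) (v : HeightOneSpectrum (𝓞 K)) :
    (0 : v.adicCompletion K) ∈ idealClosure 𝔫 v := by
  unfold idealClosure
  refine subset_closure ⟨0, 𝔫.zero_mem, ?_⟩
  simp

theorem inLevelGroup_one771 (𝔫 : Ideal (𝓞 K)) : InLevelGroup 𝔫 (1 : G K) := by
  refine ⟨fun w => (trivAtInf_iff129 w 1).2 (map_one _), fun v i j => ?_⟩
  rw [inv_one, Fermat.Agent.LT.H942.finComp_one942, sub_self]
  exact ⟨zero_mem_idealClosure771 𝔫 v, zero_mem_idealClosure771 𝔫 v⟩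

/-- An element of `I diag(ϖ, 1) I` is not in the Iwahori subgroup. -/
theorem not_inIwahori_of_coset771 {u : HeightOneSpectrum (𝓞 K)} {h : G K}
    (hc : T5.InIwahoriCoset u 1 h) : ¬ T5.InIwahori u h := by
  intro hi
  have h1 := ((inIwahori_iff340 u h).1 hi).val_det
  have h2 := (isIwT340_of_inIwahoriCoset hc).2.1
  rw [h1] at h2
  have : (WithZero.exp (0 : ℤ) : WithZero (Multiplicative ℤ)) = WithZero.exp (-1 : ℤ) := by
    rw [WithZero.exp_zero]; exact h2
  have := WithZero.exp_injective this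
  omega

/-- **`RegSuppC` is FALSE as typed.** -/
theorem regSuppC_false771 (u : HeightOneSpectrum (𝓞 K)) : ¬ RegSuppC K := by
  classical
  intro hR
  obtain ⟨H, hH⟩ := exists_iwCosetSystem340 u
  obtain ⟨z, hz⟩ := exists_scalarUniformizer129 (K := K) u
  set φ : G K → ℂ := fun y => if y = 1 then 1 else 0 with hφ
  have hdbl : IsDblCosetSystem u.asIdeal (1 : G K) ({1} : Finset (G K)) := by
    refine ⟨?_, ?_, ?_⟩
    · intro h hh
      rw [Finset.mem_singleton] at hh
      exact ⟨1, 1, inLevelGroup_one771 _, inLevelGroup_one771 _, by rw [hh]; simp⟩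
    · intro h hh h' hh' hne
      rw [Finset.mem_singleton] at hh hh'
      exact absurd (hh.trans hh'.symm) hne
    · intro u' hu'
      exact ⟨1, Finset.mem_singleton_self _, by simpa using hu'⟩
  have hsupp : T5.H32.IsIwSupported32 2 (fun _ => u) ({1} : Set (G K)) φ := by
    intro y hy
    have hy1 : y = 1 := by
      by_contra hne
      exact hy (by simp [hφ, hne])
    subst hy1
    exact ⟨fun _ _ => inIwahori_one340 u, 1, rfl, T5.H942.agreeOutside_refl942 _ _⟩
  obtain ⟨C', -, hC'⟩ := hR u.asIdeal 2 (fun _ => u) (by norm_num) (fun _ => dvd_rfl) 1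
    (fun w => (isLocalAtFin_one129 u).1 w)
    (fun _ _ => Fermat.Agent.LT.H942.finComp_one942 u) {1} H z hdbl hH hz φ {1}
    isCompact_singleton hsupp
  have hcard : 0 < H.card := by
    rw [hH.1]
    exact lt_trans Nat.zero_lt_one (NumberField.HeightOneSpectrum.one_lt_absNorm u)
  obtain ⟨h₀, hh₀⟩ := Finset.card_pos.1 hcard
  have hval : lsum ({1} : Finset (G K)) (regL u z H 0 1 φ) h₀ ≠ 0 := by
    unfold lsum regL ltr
    rw [Finset.sum_singleton, Function.iterate_one]
    unfold iwL
    have hq : ((Real.sqrt (Ideal.absNorm u.asIdeal : ℝ) : ℝ) : ℂ)⁻¹ ≠ 0 := by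
      apply inv_ne_zero
      have : (0 : ℝ) < Real.sqrt (Ideal.absNorm u.asIdeal : ℝ) := by
        apply Real.sqrt_pos.2
        exact_mod_cast lt_trans Nat.zero_lt_one (NumberField.HeightOneSpectrum.one_lt_absNorm u)
      exact_mod_cast this.ne'
    refine mul_ne_zero hq ?_
    have e : ∀ h ∈ H, φ (h⁻¹ * ((z ^ (0 : ℤ))⁻¹ * ((1 : G K)⁻¹ * h₀)))
        = if h = h₀ then 1 else 0 := by
      intro h _
      simp only [hφ, zpow_zero, inv_one, one_mul]
      by_cases hh : h = h₀
      · subst hh; simp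
      · have : h⁻¹ * h₀ ≠ 1 := by
          intro h1
          apply hh
          have := inv_mul_eq_one.1 h1
          exact this
        simp [this, hh]
    rw [Finset.sum_congr rfl e, Finset.sum_ite_eq' H h₀]
    simp [hh₀]
  have hI := (hC' 0 1 h₀ hval).2.1 1 Nat.one_pos (by norm_num)
  exact not_inIwahori_of_coset771 (hH.2.1 h₀ hh₀).2 hI

end Fermat.Agent.LT.T7.H771

end
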