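import Fermat.Agent.LT.T7.H893.SupplyPreTop
import Fermat.Agent.LT.T7.H771.RegSuppNe

/-!
# Row LT, tower T7, node T7.L2.1: the top of the THIRD CUT with the CORRECTED leaf G1 (helper771)

OFF-MAIN.  `H893.RegSuppC` is false as typed (`regSuppC_false771`); the proofs of
`SupplyPreTop.lean` (helper893, 8fcaa232) are repeated here with `RegSuppNeC771` (the hypothesis
`orbit_ne` is the field `IsL2Base.orbit_ne`), and both support leaves are DISCHARGED:

    preC_of_ne771      : PreGeoC P K K' → RegSuppNeC771 K' → RegSupp0C K → PreC P K K'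
    preC_of_geo771     : PreGeoC P K K' → PreC P K K'
    supplySC_of_geo771 : SetupC → ProjC K' → ProjC K → PreGeoC P → (8 leaves of the second cut)
                           → SupplySC P K K'
-/

set_option autoImplicit false

open AutomorphicForm IsDedekindDomain NumberField MeasureTheory
open scoped ComplexConjugate

noncomputable section

namespace Fermat.Agent.LT.T7.H771

open Fermat.Agent.LT.H556 Fermat.Agent.LT.H556.A0 Fermat.Agent.LT.T7 Fermat.Agent.LT.T7.H893

attribute [local instance] Fermat.Agent.LT.T5.instMeasurableSpaceG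

section Top

variable {P : EKCond}
variable {K K' : Type} [Field K] [NumberField K] [Field K'] [NumberField K'] [Algebra K K']

/-- **Regularity upstairs from the supports**: one depth for every word. -/
theorem exists_depth_up771 {ℓ : ℕ} {Φ : HeckeEigensystem K' ℂ} {B : L2Base K K'}
    (hB : IsL2Base ℓ Φ B) {g : G K'} (hg : B.IsBad g) {E : L2Pre K K'}
    (hOp : IsL2PreOp ℓ Φ B g E) (hSupp : IsL2PreSupp ℓ B E) (hR : RegSuppNeC771 K') (hℓ : 0 < ℓ) :
    ∃ mu : List (Gen K') → ℕ, ∀ (X : List (Gen K')) (k : ℤ) (m : ℕ),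
      (∀ x ∈ X, x.Out B.S') → mu X ≤ m → T5.IsTwRegular B.s B.l B.k (E.up B X k m) := by
  have hdeg := hB.deg
  subst hdeg
  obtain ⟨C₂, hC₂, hφ₂⟩ := hSupp.up2_supp
  obtain ⟨C₂', hC₂', hreg⟩ := hR B.𝔑₀ B.l B.o hℓ
    (fun j => (hB.mem_S' _).1 (hB.orbit_level j)) hB.orbit_ne g hg.1
    (fun j hj => hg.2 (B.o j) (Or.inr ⟨j, hj, rfl⟩)) E.Hg E.H' E.z' hOp.sysg hOp.sys' hOp.unif'
    E.φ₂ C₂ hC₂ hφ₂
  have hex : ∀ X : List (Gen K'), ∃ mu : ℕ, (∀ x ∈ X, x.Out B.S') →
      ∀ (k : ℤ) (m : ℕ), mu ≤ m → T5.IsTwRegular B.s B.l B.k (E.up B X k m) := by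
    intro X
    by_cases hX : ∀ x ∈ X, x.Out B.S'
    · obtain ⟨C₁, hC₁, hΦ₁⟩ := hSupp.up1_supp X hX
      obtain ⟨m₀, hm₀⟩ := T5.H32.exists_depth_conv32 hB.cyc B.o hB.orbit_rel hB.orbit_ne
        hC₁ hC₂' B.R'.μ
      exact ⟨m₀, fun _ k m hm => (hm₀ m hm (E.Φ₁ X) _ hΦ₁ (hreg k m)).1⟩
    · exact ⟨0, fun h => absurd h hX⟩
  choose mu hmu using hex
  exact ⟨mu, fun X k m hX hm => hmu X hX k m hm⟩

/-- **THE TOP OF THE THIRD CUT**: the pre-data from the construction with matching, and the two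
support leaves. -/
theorem preC_of_ne771 (h0 : PreGeoC P K K') (hR : RegSuppNeC771 K') (hR0 : RegSupp0C K) :
    PreC P K K' := by
  intro ℓ hcyc hℓ hcplx Φ hΦ hconst hPΦ B hB g hg
  obtain ⟨E, hOp, hSupp, m₂, hM⟩ := h0 ℓ hcyc hℓ hcplx Φ hΦ hconst hPΦ B hB g hg
  obtain ⟨mu, hmu⟩ := exists_depth_up771 hB hg hOp hSupp hR hcyc.prime.pos
  obtain ⟨md, hmd⟩ := H893.exists_depth_down893 hOp hSupp hR0
  refine ⟨{ E with m₀ := fun X => max (m₂ X) (max (mu X) (md X)) }, ?_⟩
  exact
    { level_ne := hOp.level_ne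
      level_g := hOp.level_g
      mem_S'_g := hOp.mem_S'_g
      u_level := hOp.u_level
      sysg := hOp.sysg
      sys' := hOp.sys'
      unif' := hOp.unif'
      sys := hOp.sys
      unif := hOp.unif
      up1_test := hOp.up1_test
      up1_ek := hOp.up1_ek
      up1_op := hOp.up1_op
      up2_test := hOp.up2_test
      up2_ek := hOp.up2_ek
      up2_inv := hOp.up2_inv
      up2_op := hOp.up2_op
      up2_kill := hOp.up2_kill
      up_ne := hOp.up_ne
      dn1_test := hOp.dn1_test
      dn1_ek := hOp.dn1_ek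
      dn1_op := hOp.dn1_op
      dn1_wfn := hOp.dn1_wfn
      dn1_class := hOp.dn1_class
      dn1_comm := hOp.dn1_comm
      dn2_test := hOp.dn2_test
      dn2_ek := hOp.dn2_ek
      dn2_inv := hOp.dn2_inv
      dn2_wfn := hOp.dn2_wfn
      dn2_class := hOp.dn2_class
      dn2_comm := hOp.dn2_comm
      dn2_kill := hOp.dn2_kill
      reg_up := fun X k m hX hm =>
        hmu X k m hX (le_trans (le_trans (le_max_left _ _) (le_max_right _ _)) hm)
      reg_down := fun X k m hX hm =>
        hmd X k m hX (le_trans (le_trans (le_max_right _ _) (le_max_right _ _)) hm)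
      matched := fun X k m hX hm => hM X k m hX (le_trans (le_max_left _ _) hm) }

/-- **The pre-data from the construction with matching ALONE** (both support leaves closed). -/
theorem preC_of_geo771 (h0 : PreGeoC P K K') : PreC P K K' :=
  preC_of_ne771 h0 (regSuppNeC771 K') (regSupp0C771 K)

/-- **THE STABLE SUPPLY from the leaves of the three cuts**, support leaves closed. -/
theorem supplySC_of_geo771 (hS : SetupC K K') (hP' : ProjC K') (hP : ProjC K)
    (h0 : PreGeoC P K K')
    (h1 : EkProdUpC K K') (h2 : EkProdDownC K K') (h3 : OpUpC K K') (h4 : KillUpC K K')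
    (h5 : OpDownC K K') (h6 : ClassDownC K K') (h7 : CommDownC K K') (h8 : KillDownC K K') :
    SupplySC P K K' :=
  supplySC_of_leaves893 hS hP' hP (preC_of_geo771 h0) h1 h2 h3 h4 h5 h6 h7 h8

end Top

end Fermat.Agent.LT.T7.H771

end
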